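import Mathlib

/-!
# Row S59, cell (C) LO-SQ — divisibility of the `p`-power torsion from the counts (helper216)

Mathlib only.

* `exists_nsmul_eq_of_card_h216` : if `|A[p ^ j]| = p ^ (b j)` for all `j`, then every
  `y ∈ A[p ^ n]` is `p ^ k • z` with `z ∈ A[p ^ (n + k)]`.
* `dvd_of_pow_dvd_mul_h216` : `s = p ^ k s'`, `p ∤ s'`, `p ^ (n + k) ∣ s c` ⟹ `p ^ n ∣ c`.
-/

set_option autoImplicit false
set_option linter.style.haveILetI false

namespace Fermat.Agent.S59.LoSqC.H216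

section Div

variable {A : Type*} [AddCommGroup A]

/-- The `p ^ j`-torsion, as the kernel of multiplication by `p ^ j`. -/
def torsPow_h216 (A : Type*) [AddCommGroup A] (p j : ℕ) : AddSubgroup A :=
  (nsmulAddMonoidHom (p ^ j) : A →+ A).ker

theorem mem_torsPow_h216 {p j : ℕ} {x : A} : x ∈ torsPow_h216 A p j ↔ p ^ j • x = 0 := by
  unfold torsPow_h216
  rw [AddMonoidHom.mem_ker]
  rfl

theorem card_torsPow_h216 (p j : ℕ) :
    Nat.card (torsPow_h216 A p j) = Nat.card {x : A // p ^ j • x = 0} :=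
  Nat.card_congr (Equiv.subtypeEquivRight fun _ => mem_torsPow_h216)

/-- **Divisibility of the `p`-power torsion from the counts.** -/
theorem exists_nsmul_eq_of_card_h216 {p : ℕ} (hp : 0 < p) (b : ℕ)
    (hA : ∀ j, Nat.card {x : A // p ^ j • x = 0} = p ^ (b * j)) (n k : ℕ) (y : A)
    (hy : p ^ n • y = 0) : ∃ z : A, p ^ (n + k) • z = 0 ∧ p ^ k • z = y := by
  classical
  have hcard : ∀ j, Nat.card (torsPow_h216 A p j) = p ^ (b * j) := fun j => by
    rw [card_torsPow_h216, hA]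
  have hfin : ∀ j, Finite (torsPow_h216 A p j) := fun j =>
    Nat.finite_of_card_ne_zero (by rw [hcard]; exact (pow_pos hp _).ne')
  haveI := hfin n
  haveI := hfin k
  haveI := hfin (n + k)
  let ψ : torsPow_h216 A p (n + k) →+ A :=
    (nsmulAddMonoidHom (p ^ k) : A →+ A).comp (torsPow_h216 A p (n + k)).subtype
  have hψ : ∀ x : torsPow_h216 A p (n + k), ψ x = p ^ k • (x : A) := fun _ => rfl
  -- the range lies in the `p ^ n`-torsion
  have hrange : ψ.range ≤ torsPow_h216 A p n := by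
    rintro _ ⟨x, rfl⟩
    rw [mem_torsPow_h216, hψ, ← mul_nsmul', ← pow_add]
    exact mem_torsPow_h216.1 x.2
  -- the kernel is the `p ^ k`-torsion
  have hker : Nat.card ψ.ker = Nat.card (torsPow_h216 A p k) := by
    refine Nat.card_congr
      { toFun := fun x => ⟨((x : torsPow_h216 A p (n + k)) : A), by
          rw [mem_torsPow_h216, ← hψ]
          exact (AddMonoidHom.mem_ker).1 x.2⟩
        invFun := fun x => ⟨⟨(x : A), by
          rw [mem_torsPow_h216, add_comm n k, pow_add, mul_comm, mul_nsmul',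
            mem_torsPow_h216.1 x.2, smul_zero]⟩, by
          rw [AddMonoidHom.mem_ker, hψ]
          exact mem_torsPow_h216.1 x.2⟩
        left_inv := fun x => rfl
        right_inv := fun x => rfl }
  have h1 : Nat.card ψ.ker * Nat.card ψ.range = Nat.card (torsPow_h216 A p (n + k)) := by
    rw [← AddSubgroup.index_ker]
    exact AddSubgroup.card_mul_index ψ.ker
  rw [hker, hcard, hcard] at h1
  have h2 : Nat.card ψ.range = p ^ (b * n) := by
    have e : p ^ (b * (n + k)) = p ^ (b * k) * p ^ (b * n) := by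
      rw [← pow_add]
      congr 1
      ring
    rw [e] at h1
    exact Nat.eq_of_mul_eq_mul_left (pow_pos hp _) h1
  have h3 : ψ.range = torsPow_h216 A p n :=
    AddSubgroup.eq_of_le_of_card_ge hrange (by rw [h2, hcard])
  have hy' : y ∈ ψ.range := by
    rw [h3]
    exact mem_torsPow_h216.2 hy
  obtain ⟨x, rfl⟩ := hy'
  exact ⟨(x : A), mem_torsPow_h216.1 x.2, (hψ x).symm⟩

end Div

/-- `s = p ^ k s'` with `p ∤ s'` and `p ^ (n + k) ∣ s c` give `p ^ n ∣ c`. -/
theorem dvd_of_pow_dvd_mul_h216 {p : ℕ} (hp : p.Prime) {s' k n : ℕ} (hs' : ¬ p ∣ s') {c : ℤ}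
    (h : ((p ^ (n + k) : ℕ) : ℤ) ∣ ((p ^ k * s' : ℕ) : ℤ) * c) : ((p ^ n : ℕ) : ℤ) ∣ c := by
  have hpk : ((p ^ k : ℕ) : ℤ) ≠ 0 := by
    exact_mod_cast (pow_pos hp.pos k).ne'
  have h1 : ((p ^ k : ℕ) : ℤ) * ((p ^ n : ℕ) : ℤ) ∣ ((p ^ k : ℕ) : ℤ) * ((s' : ℤ) * c) := by
    have e1 : ((p ^ (n + k) : ℕ) : ℤ) = ((p ^ k : ℕ) : ℤ) * ((p ^ n : ℕ) : ℤ) := by
      push_cast
      ring
    have e2 : ((p ^ k * s' : ℕ) : ℤ) * c = ((p ^ k : ℕ) : ℤ) * ((s' : ℤ) * c) := by
      push_cast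
      ring
    rw [← e1, ← e2]
    exact h
  have h2 : ((p ^ n : ℕ) : ℤ) ∣ (s' : ℤ) * c := (mul_dvd_mul_iff_left hpk).1 h1
  have hcop : IsCoprime ((p ^ n : ℕ) : ℤ) (s' : ℤ) := by
    rw [Int.isCoprime_iff_gcd_eq_one, Int.gcd_natCast_natCast]
    exact Nat.Coprime.pow_left n ((Nat.Prime.coprime_iff_not_dvd hp).2 hs')
  exact hcop.dvd_of_dvd_mul_left h2

end Fermat.Agent.S59.LoSqC.H216
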