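import Fermat.Agent.Ribet.H884.SlopeS1
import Fermat.Agent.Ribet.H158.WallQSlope

/-!
# S59 moonshot, cell (C) LO-SQ, W-COUNT sub-leaf **TAU**  (helper216)

Level `N` arbitrary (`N = M q` in the cell), `A` a valuation subring of `ℚ̄` over a prime `q`,
`I = A.inertiaSubgroupIn ℚ`, exponent `m` ARBITRARY (`m = p ^ n` in the cell; no primality, no
coprimality is used).

**TAU**: for `x ∈ J₀(N)[m]` and `τ ∈ I`, the class `τ x - x` has a Kummer generator (exponent `m`)
whose reductions on the `∞`-component and on the `0`-component are both the constant series `1`;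
so `(τ - 1) J₀(N)[m]` lies in the toric (split) part, whatever normal form the cell freezes for it.

Proof: replay of `Ribet.H884.s1` (wall-p), which is generic in the level, in the place and in the
exponent: `exists_isKummerGen`, `isKummerGen_galSubOne`, `isRedInf_galSubOne`,
`isRedZero_galSubOne`.

* `tauGen_h216`            : generator form, any `N`, any `m`;
* `tauGen_pow_h216`        : the same with the reductions written as `C c * h ^ m`, `c = 1`, `h = 1`;
* `tau_mem_splitSetQ_h216` / `tau_mem_splitPartQ_h216` : for prime exponent `p`, level `q M'`: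
  `τ x - x ∈ H158.WallQ.splitPartQ p q M' A` (vocabulary of WALL-q on main);
* `tau_sub_tau_h216`       : `(τ - 1)` of a class is killed by `m` (bookkeeping for COUNT1).
-/

set_option autoImplicit false
set_option synthInstance.maxHeartbeats 400000
set_option maxHeartbeats 1000000
set_option linter.unusedSectionVars false

noncomputable section

namespace Fermat.Agent.S59.LoSqC.H216

open AlgebraicCurve ModularCurve HahnSeries
open Fermat.Agent.S24 Fermat.Agent.A2.H708 Fermat.Agent.A2.H528 Fermat.Agent.A2.H129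
open Fermat.Agent.Ribet.Spec Fermat.Agent.Ribet.H944.Wall Fermat.Agent.Ribet.H884

/-- **TAU, generator form.**  `τ x - x` has a Kummer generator of exponent `m` with both
reductions equal to `1`. -/
theorem tauGen_h216 {N : ℕ} [NeZero N] {q : ℕ} (hq0 : q ≠ 0) {A : ValuationSubring Kbar}
    (hA : A.LiesOverPrime q) (m : ℕ) (x : JZero N) (hx : m • x = 0)
    {τ : Kbar ≃ₐ[ℚ] Kbar} (hτ : τ ∈ A.inertiaSubgroupIn ℚ) :
    ∃ u : FF N, IsKummerGen N m u (τ • x - x) ∧ IsRedInf N A u 1 ∧ IsRedZero N A u 1 := by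
  obtain ⟨f, hf⟩ := exists_isKummerGen (N := N) m x hx
  exact ⟨gal N τ f * f⁻¹, isKummerGen_galSubOne m τ hf,
    isRedInf_galSubOne hq0 hA hτ hf.1, isRedZero_galSubOne hq0 hA hτ hf.1⟩

/-- The constant series `1` is (a constant times) an `m`-th power in `F_k = k(X₀(M'))`. -/
theorem one_eq_C_mul_pow_h216 (m M' : ℕ) {k : Type} [Field k] :
    ∃ (c : k) (h : modularFunctionFieldFullC k M'), c ≠ 0 ∧ h ≠ 0 ∧
      (1 : LaurentSeries k) = HahnSeries.C c * (h : LaurentSeries k) ^ m := by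
  refine ⟨1, 1, one_ne_zero, one_ne_zero, ?_⟩
  simp

/-- **TAU, power form.**  The two reductions of the generator are `C c * h ^ m` with `h ∈ F_k`. -/
theorem tauGen_pow_h216 {N : ℕ} [NeZero N] {q : ℕ} (hq0 : q ≠ 0) {A : ValuationSubring Kbar}
    (hA : A.LiesOverPrime q) (m M' : ℕ) (x : JZero N) (hx : m • x = 0)
    {τ : Kbar ≃ₐ[ℚ] Kbar} (hτ : τ ∈ A.inertiaSubgroupIn ℚ) :
    ∃ (u : FF N) (r₁ r₂ : LaurentSeries (kA A)), IsKummerGen N m u (τ • x - x) ∧
      IsRedInf N A u r₁ ∧ IsRedZero N A u r₂ ∧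
      (∃ (c : kA A) (h : modularFunctionFieldFullC (kA A) M'), c ≠ 0 ∧ h ≠ 0 ∧
        r₁ = HahnSeries.C c * (h : LaurentSeries (kA A)) ^ m) ∧
      (∃ (c : kA A) (h : modularFunctionFieldFullC (kA A) M'), c ≠ 0 ∧ h ≠ 0 ∧
        r₂ = HahnSeries.C c * (h : LaurentSeries (kA A)) ^ m) := by
  obtain ⟨u, hu, h1, h2⟩ := tauGen_h216 hq0 hA m x hx hτ
  exact ⟨u, 1, 1, hu, h1, h2, one_eq_C_mul_pow_h216 m M', one_eq_C_mul_pow_h216 m M'⟩

section WallQ

open Fermat.Agent.Ribet.H158.WallQ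

variable (p q M' : ℕ) [NeZero (q * M')]

/-- **TAU in WALL-q vocabulary** (prime exponent): `τ x - x ∈ splitSetQ`. -/
theorem tau_mem_splitSetQ_h216 (hq0 : q ≠ 0) {A : ValuationSubring Kbar}
    (hA : A.LiesOverPrime q) (x : JZero (q * M')) (hx : p • x = 0)
    {τ : Kbar ≃ₐ[ℚ] Kbar} (hτ : τ ∈ A.inertiaSubgroupIn ℚ) :
    τ • x - x ∈ splitSetQ p q M' A := by
  obtain ⟨u, hu, h1, h2⟩ := tauGen_h216 (N := q * M') hq0 hA p x hx hτ
  exact ⟨u, hu, 1, 1, h1, h2, one_eq_C_mul_pow_h216 p M', one_eq_C_mul_pow_h216 p M'⟩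

/-- **TAU in WALL-q vocabulary**: `(τ - 1) J₀(qM')[p] ⊆ 𝒮 = splitPartQ`. -/
theorem tau_mem_splitPartQ_h216 (hq0 : q ≠ 0) {A : ValuationSubring Kbar}
    (hA : A.LiesOverPrime q) (x : JZero (q * M')) (hx : p • x = 0)
    {τ : Kbar ≃ₐ[ℚ] Kbar} (hτ : τ ∈ A.inertiaSubgroupIn ℚ) :
    τ • x - x ∈ splitPartQ p q M' A :=
  AddSubgroup.subset_closure (tau_mem_splitSetQ_h216 p q M' hq0 hA x hx hτ)

end WallQ

end Fermat.Agent.S59.LoSqC.H216

end
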