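import Fermat.Agent.S59.LoSqC.H216.DivTors
import Fermat.Agent.S59.LoSqC.H862.NodeRelCard
import Fermat.Agent.S27.H145.Modular

/-!
# S59 moonshot, cell (C) LO-SQ, W-COUNT sub-leaf **TAU-SLOPE**  (helper216)

Level `q M'`, `q ∤ M'`, `A` over `q`, `E = ℚ̄^I` the inertia field of `A`, vocabulary of helper862
(`S59/LoSqC/H862/NodeRelCard.lean`: `HasSlopeZeroGen`, `exists_slopeGen862`, `nodeRelE`).

**TAU-SLOPE** (`hasSlopeZeroGen_tau_h216`): for `x ∈ J₀(q M')[p ^ n]` the class `τ x - x` has an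
`E`-rational Kummer generator of exponent `p ^ n` with E-SLOPE ZERO modulo `p ^ n`
(`H862.HasSlopeZeroGen (p ^ n) q M' A (τ • x - x)`), provided `(τ - 1) z` is inertia-fixed for all
`p`-power torsion `z` (TAME-CYC).

No node-local analysis: with `s = (q - 1) ψ(M') = p ^ k s'`, `p ∤ s'`, write `x = p ^ k z`,
`z ∈ J[p ^ (n + k)]` (divisibility of the `p`-power torsion, from `S27.H145.card_torsion_JZero`);
`y' = τ z - z` is inertia-fixed, so it has an `E`-rational Kummer generator `g` of exponent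
`p ^ (n + k)`, and `H862.nodeRelE` gives `p ^ (n + k) ∣ s (v₁ g - v₂ g)`, i.e.
`p ^ n ∣ v₁ g - v₂ g`; the SAME `g` is a Kummer generator of `p ^ k y' = τ x - x` of exponent
`p ^ n`.

So TAU-E (`τ x - x ∈ kummerClasses (splitDiv)`) = TAU (J-form, `Tau.lean`) + TAU-SLOPE +
SPLIT-DICT with the slope hypothesis.
-/

set_option autoImplicit false
set_option linter.unusedSectionVars false
set_option linter.unusedVariables false
set_option linter.style.haveILetI false
set_option synthInstance.maxHeartbeats 400000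
set_option maxHeartbeats 1600000

noncomputable section

open AlgebraicCurve

namespace Fermat.Agent.S59.LoSqC.H216

open ModularCurve HahnSeries
open Fermat.Agent.S24 Fermat.Agent.Ribet.H884 Fermat.Agent.Ribet.H158.WallQ
open Fermat.Agent.A2.Mod Fermat.Agent.Ribet.H868
open Fermat.Agent.Ribet.H704 (I6.ValAt)
open Fermat.Agent.A2.IF.H429 (inertiaField)
open Fermat.Agent.S59.LoSqC.H862

/-! ## Change of the exponent -/

section Exponent

variable {N : ℕ} [NeZero N]

/-- A Kummer generator of `y` for the exponent `m d` is a Kummer generator of `d • y` for the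
exponent `m`. -/
theorem isKummerGen_nsmul_of_mul_h216 {m d : ℕ} {f : FF N} {y : JZero N}
    (h : IsKummerGen N (m * d) f y) : IsKummerGen N m f (d • y) := by
  obtain ⟨hf0, D, rfl, hD⟩ := h
  refine ⟨hf0, d • D, rfl, fun v => ?_⟩
  rw [hD v, AddSubgroup.coe_nsmul, Finsupp.smul_apply, nsmul_eq_mul]
  push_cast
  ring

/-- `m d ∣ div g` implies `m ∣ div g`. -/
theorem divisibleDiv_of_mul_h216 {E F : Type*} [Field E] [Field F] [Algebra E F] {m d : ℕ}
    {g : F} (h : A2.DivisibleDiv E (m * d) g) : A2.DivisibleDiv E m g := by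
  intro V hV hE
  obtain ⟨h₀, u, hh₀, hu, hu', e⟩ := h V hV hE
  refine ⟨h₀ ^ d, u, pow_ne_zero _ hh₀, hu, hu', ?_⟩
  rw [e, ← pow_mul, mul_comm d m]

/-- The Galois action commutes with multiples. -/
theorem gal_smul_nsmul_h216 (τ : Kbar ≃ₐ[ℚ] Kbar) (d : ℕ) (z : JZero N) :
    τ • (d • z) = d • (τ • z) :=
  (DistribMulAction.toAddMonoidHom (JZero N) τ).map_nsmul d z

theorem gal_smul_zero_h216 (τ : Kbar ≃ₐ[ℚ] Kbar) : τ • (0 : JZero N) = 0 :=
  (DistribMulAction.toAddMonoidHom (JZero N) τ).map_zero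

theorem nsmul_galSubOne_h216 (τ : Kbar ≃ₐ[ℚ] Kbar) (d : ℕ) (z : JZero N) :
    d • (τ • z - z) = τ • (d • z) - d • z := by
  rw [nsmul_sub, gal_smul_nsmul_h216]

end Exponent

/-! ## TAU-SLOPE -/

section TauSlope

variable (p n q M' : ℕ) [NeZero M'] [NeZero q] [NeZero (q * M')]

/-- **TAU-SLOPE.**  The class `τ x - x`, `x ∈ J₀(q M')[p ^ n]`, has E-slope zero modulo
`p ^ n`. -/
theorem hasSlopeZeroGen_tau_h216 (hp : p.Prime) (hq : q.Prime) (hqM : ¬ q ∣ M')
    (hAux : S35.G.HasAux M' q) (A : ValuationSubring Kbar) (hA : A.LiesOverPrime q)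
    (hTh1 : Th1At A (inertiaField A) M' q ((q : ℕ) : RE A (inertiaField A)))
    (τ : Kbar ≃ₐ[ℚ] Kbar)
    (hfix : ∀ (j : ℕ) (z : JZero (q * M')), p ^ j • z = 0 →
      ∀ σ ∈ A.inertiaSubgroupIn ℚ, σ • (τ • z - z) = τ • z - z)
    (x : JZero (q * M')) (hx : p ^ n • x = 0) :
    HasSlopeZeroGen (p ^ n) q M' A (τ • x - x) := by
  -- the constant `s = p ^ k s'`
  have hs : 0 < (q - 1) * dedekindPsi M' :=
    Nat.mul_pos (Nat.sub_pos_of_lt hq.one_lt) (dedekindPsi_pos_of_ne_zero M' (NeZero.ne M'))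
  obtain ⟨k, s', hs', hsk⟩ := Nat.exists_eq_pow_mul_and_not_dvd hs.ne' p hp.ne_one
  -- divisibility: `x = p ^ k z`
  have hcard : ∀ j, Nat.card {y : JZero (q * M') // p ^ j • y = 0} =
      p ^ ((2 * genusFF (AlgebraicClosure ℚ) (modularFunctionFieldBar (q * M'))) * j) := by
    intro j
    rw [Fermat.Agent.S27.H145.card_torsion_JZero (q * M') (p ^ j) (pow_ne_zero _ hp.ne_zero),
      ← pow_mul, mul_comm j]
  obtain ⟨z, hz, hzx⟩ := exists_nsmul_eq_of_card_h216 hp.pos _ hcard n k x hx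
  -- the class `y' = τ z - z`
  have hy' : p ^ (n + k) • (τ • z - z) = 0 := by
    rw [nsmul_galSubOne_h216, hz, gal_smul_zero_h216, sub_zero]
  have hE : A2.GoodField A (inertiaField A) := goodField_inertiaField A q hq hA
  have hS : Setting A (inertiaField A) M' q ((q : ℕ) : RE A (inertiaField A)) :=
    setting_inertiaField A q M' hq hqM (NeZero.ne M') hA
  have hwq : ((((q : ℕ) : RE A (inertiaField A)) : inertiaField A)) = (q : inertiaField A) := by
    simp
  obtain ⟨cf, hex, -⟩ := exists_chart_vert862 A (inertiaField A) M' q _ hS hE hAux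
  obtain ⟨g, hg0, hgdiv, hgK⟩ := exists_slopeGen862 (p ^ (n + k)) q M' A (τ • z - z) hy'
    (hfix (n + k) z hz)
  obtain ⟨v₁, v₂, h1, h2⟩ := hex g hg0
  have hdivK : ∀ v : Place Kbar (FF (q * M')),
      ((p ^ (n + k) : ℕ) : ℤ) ∣ v.ord (toFF (inertiaField A) (Nat.mul_comm M' q) g) := by
    obtain ⟨-, D, -, hD⟩ := hgK
    exact fun v => ⟨_, hD v⟩
  have hrel := nodeRelE (p ^ (n + k)) q M' (pow_pos hp.pos _) hq hqM hAux A hA (inertiaField A) _
    hS hE hwq hTh1 cf g hg0 hgdiv hdivK v₁ v₂ h1 h2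
  rw [hsk] at hrel
  have hslope : ((p ^ n : ℕ) : ℤ) ∣ v₁ - v₂ := dvd_of_pow_dvd_mul_h216 hp hs' hrel
  -- the same generator, exponent `p ^ n`
  have hpow : p ^ (n + k) = p ^ n * p ^ k := pow_add p n k
  refine ⟨g, cf, v₁, v₂, hg0, ?_, ?_, h1, h2, hslope⟩
  · rw [hpow] at hgdiv
    exact divisibleDiv_of_mul_h216 hgdiv
  · rw [hpow] at hgK
    have h3 := isKummerGen_nsmul_of_mul_h216 hgK
    rwa [nsmul_galSubOne_h216, hzx] at h3

end TauSlope

end Fermat.Agent.S59.LoSqC.H216
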